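import Mathlib.Algebra.Algebra.Subalgebra.Basic
import Mathlib.Algebra.Central.Defs
import Mathlib.FieldTheory.Galois.Basic
import Mathlib.LinearAlgebra.LinearIndependent.Basic
import Mathlib.RingTheory.SimpleRing.Basic

/-!
# Cyclic algebras

`A` is the cyclic algebra `(L/K, σ, a)` if it has a copy `f` of `L` and an element `u` with
`u x = σ(x) u` and `u ^ n = a`, `n = [L:K]`, and dimension `n ^ 2`.
-/

set_option autoImplicit false

noncomputable section

open Module

namespace FA.CyclicAlgebra

variable {K L : Type*} [Field K] [Field L] [Algebra K L]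

/-- A presentation `u f(x) = f(σ x) u`, `u ^ [L:K] = a` inside `A`. -/
structure Presentation (σ : L ≃ₐ[K] L) (a : K) (A : Type*) [Ring A] [Algebra K A] where
  /-- The copy of `L`. -/
  f : L →ₐ[K] A
  /-- The element acting as `σ`. -/
  u : A
  conj : ∀ x, u * f x = f (σ x) * u
  pow_eq : u ^ finrank K L = algebraMap K A a

namespace Presentation

variable {σ : L ≃ₐ[K] L} {a : K} {A : Type*} [Ring A] [Algebra K A] (P : Presentation σ a A)

theorem pow_conj (i : ℕ) (x : L) : P.u ^ i * P.f x = P.f ((σ ^ i) x) * P.u ^ i := by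
  induction i generalizing x with
  | zero => simp
  | succ i ih => rw [pow_succ', mul_assoc, ih, ← mul_assoc, P.conj, mul_assoc, pow_succ',
      AlgEquiv.mul_apply]

theorem isUnit_u [FiniteDimensional K L] (ha : a ≠ 0) : IsUnit P.u := by
  have h : IsUnit (P.u ^ finrank K L) := P.pow_eq ▸ (isUnit_iff_ne_zero.2 ha).map (algebraMap K A)
  exact (isUnit_pow_iff Module.finrank_pos.ne').1 h

/-- `c ↦ ∑ f (c i) u ^ i`. -/
def coeff : (Fin (finrank K L) → L) →ₗ[K] A :=
  ∑ i : Fin (finrank K L),
    (LinearMap.mulRight K (P.u ^ (i : ℕ))) ∘ₗ P.f.toLinearMap ∘ₗ LinearMap.proj i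

theorem coeff_apply (c : Fin (finrank K L) → L) :
    P.coeff c = ∑ i : Fin (finrank K L), P.f (c i) * P.u ^ (i : ℕ) := by
  simp [coeff]

theorem coeff_single (i : Fin (finrank K L)) (x : L) :
    P.coeff (Pi.single i x) = P.f x * P.u ^ (i : ℕ) := by
  rw [coeff_apply, Finset.sum_eq_single i (fun j _ hj => by rw [Pi.single_eq_of_ne hj, map_zero,
    zero_mul]) (fun h => (h (Finset.mem_univ i)).elim), Pi.single_eq_same]

variable [FiniteDimensional K L] [IsGalois K L]

/-- The powers of a generator below the degree are distinct. -/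
theorem pow_injective (hσ : ∀ g, g ∈ Subgroup.zpowers σ) :
    Function.Injective fun i : Fin (finrank K L) => σ ^ (i : ℕ) := fun i j h =>
  Fin.ext (pow_injOn_Iio_orderOf
    (by rw [orderOf_eq_card_of_forall_mem_zpowers hσ, IsGalois.card_aut_eq_finrank]; exact i.isLt)
    (by rw [orderOf_eq_card_of_forall_mem_zpowers hσ, IsGalois.card_aut_eq_finrank]; exact j.isLt)
      h)

/-- **`f(L) u^i`, `i < n`, are independent.** -/
theorem coeff_injective [Nontrivial A] (hσ : ∀ g, g ∈ Subgroup.zpowers σ) (ha : a ≠ 0) :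
    Function.Injective P.coeff := by
  rw [injective_iff_map_eq_zero]
  intro c hc
  let _ : Module L A := Module.compHom A P.f.toRingHom
  have hsm : ∀ (x : L) (v : A), x • v = P.f x * v := fun x v => rfl
  funext i
  have hzero : ∀ g : A →ₗ[L] L, c i * g (P.u ^ (i : ℕ)) = 0 := by
    intro g
    have hx : ∀ x : L, ∑ j : Fin (finrank K L), (c j * g (P.u ^ (j : ℕ))) * (σ ^ (j : ℕ)) x =
        0 := fun x => by
      calc _ = g ((∑ j : Fin (finrank K L), P.f (c j) * P.u ^ (j : ℕ)) * P.f x) := by
            rw [Finset.sum_mul, map_sum]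
            refine Finset.sum_congr rfl fun j _ => ?_
            rw [mul_assoc (P.f (c j)), P.pow_conj, ← mul_assoc (P.f (c j)), ← map_mul, ← hsm,
              map_smul,
              smul_eq_mul]
            ring
        _ = 0 := by rw [← P.coeff_apply, hc, zero_mul, map_zero]
    exact Fintype.linearIndependent_iff.1 ((linearIndependent_monoidHom L L).comp
      (fun j : Fin (finrank K L) => ((σ ^ (j : ℕ) : L ≃ₐ[K] L).toRingEquiv.toRingHom.toMonoidHom))
      fun j k h => pow_injective hσ (AlgEquiv.ext fun x => DFunLike.congr_fun h x))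
      (fun j => c j * g (P.u ^ (j : ℕ))) (funext fun x => by simpa [smul_eq_mul] using hx x) i
  by_contra h
  have hu : P.u ^ (i : ℕ) ≠ 0 := ((P.isUnit_u ha).pow _).ne_zero
  obtain ⟨g, hg⟩ : ∃ g : A →ₗ[L] L, g (P.u ^ (i : ℕ)) ≠ 0 := by
    by_contra! hall
    exact hu ((Module.forall_dual_apply_eq_zero_iff L _).1 hall)
  exact (mul_ne_zero h hg) (hzero g)

/-- The product in coordinates. -/
def mulCoord (σ : L ≃ₐ[K] L) (a : K) (c d : Fin (finrank K L) → L) : Fin (finrank K L) → L :=
  ∑ i : Fin (finrank K L), ∑ j : Fin (finrank K L), Pi.single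
    (⟨((i : ℕ) + j) % finrank K L, Nat.mod_lt _ (Fin.pos i)⟩ : Fin (finrank K L))
    (c i * (σ ^ (i : ℕ)) (d j) * algebraMap K L (a ^ (((i : ℕ) + j) / finrank K L)))

omit [FiniteDimensional K L] [IsGalois K L] in
/-- **Products are given by `mulCoord`**, whatever the algebra. -/
theorem coeff_mul (c d : Fin (finrank K L) → L) :
    P.coeff c * P.coeff d = P.coeff (mulCoord σ a c d) := by
  simp only [mulCoord, map_sum, coeff_single]
  rw [coeff_apply, coeff_apply, Finset.sum_mul]
  refine Finset.sum_congr rfl fun i _ => ?_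
  rw [Finset.mul_sum]
  refine Finset.sum_congr rfl fun j _ => ?_
  have hred : ∀ k : ℕ, P.u ^ k =
      P.f (algebraMap K L (a ^ (k / finrank K L))) * P.u ^ (k % finrank K L) := fun k => by
    conv_lhs => rw [← Nat.div_add_mod k (finrank K L), pow_add, pow_mul, P.pow_eq, ← map_pow]
    rw [AlgHom.commutes]
  rw [mul_assoc, ← mul_assoc (P.u ^ (i : ℕ)), P.pow_conj, mul_assoc (P.f _), ← pow_add, ← mul_assoc,
    hred, ← mul_assoc, ← map_mul, ← map_mul]

omit [FiniteDimensional K L] [IsGalois K L] in
theorem coeff_one [FiniteDimensional K L] :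
    P.coeff (Pi.single ⟨0, Module.finrank_pos⟩ 1) = 1 := by
  rw [coeff_single]
  simp

theorem coeff_bijective [Nontrivial A] [FiniteDimensional K A]
    (hσ : ∀ g, g ∈ Subgroup.zpowers σ) (ha : a ≠ 0)
    (hdim : finrank K A = finrank K L ^ 2) : Function.Bijective P.coeff :=
  ⟨P.coeff_injective hσ ha, (LinearMap.injective_iff_surjective_of_finrank_eq_finrank
    (by rw [Module.finrank_pi_fintype, Finset.sum_const, Finset.card_univ, Fintype.card_fin,
      smul_eq_mul, hdim, sq])).1 (P.coeff_injective hσ ha)⟩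

include P in
/-- **The cyclic algebra is unique up to isomorphism.** -/
theorem nonempty_algEquiv {B : Type*} [Ring B] [Algebra K B] [Nontrivial A] [Nontrivial B]
    [FiniteDimensional K A] [FiniteDimensional K B] (Q : Presentation σ a B)
    (hσ : ∀ g, g ∈ Subgroup.zpowers σ) (ha : a ≠ 0) (hA : finrank K A = finrank K L ^ 2)
    (hB : finrank K B = finrank K L ^ 2) : Nonempty (A ≃ₐ[K] B) := by
  let e := LinearEquiv.ofBijective P.coeff (P.coeff_bijective hσ ha hA)
  let e' := LinearEquiv.ofBijective Q.coeff (Q.coeff_bijective hσ ha hB)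
  have he : ∀ c, e c = P.coeff c := fun c => rfl
  have he' : ∀ c, e' c = Q.coeff c := fun c => rfl
  refine ⟨AlgEquiv.ofLinearEquiv (e.symm.trans e') ?_ fun x y => ?_⟩
  · rw [← P.coeff_one, ← he, LinearEquiv.trans_apply, LinearEquiv.symm_apply_apply, he',
      Q.coeff_one]
  · obtain ⟨c, rfl⟩ := e.surjective x
    obtain ⟨d, rfl⟩ := e.surjective y
    rw [show e c * e d = e (mulCoord σ a c d) from P.coeff_mul c d]
    simp only [LinearEquiv.trans_apply, LinearEquiv.symm_apply_apply, he', Q.coeff_mul]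

include P in
/-- **The cyclic algebra is central.** -/
theorem isCentral [Nontrivial A] [FiniteDimensional K A] (hσ : ∀ g, g ∈ Subgroup.zpowers σ)
    (ha : a ≠ 0) (hdim : finrank K A = finrank K L ^ 2) : Algebra.IsCentral K A := by
  refine ⟨fun z hz => ?_⟩
  obtain ⟨c, rfl⟩ := (P.coeff_bijective hσ ha hdim).2 z
  let i₀ : Fin (finrank K L) := ⟨0, Module.finrank_pos⟩
  have hc : ∀ i, i ≠ i₀ → c i = 0 := by
    intro i hi
    by_contra h
    have h0 : σ ^ (i : ℕ) ≠ σ ^ (i₀ : ℕ) := fun e => hi (pow_injective hσ e)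
    obtain ⟨x, hx⟩ : ∃ x, (σ ^ (i : ℕ)) x ≠ x := by
      by_contra! hx
      exact h0 (AlgEquiv.ext fun x => (hx x).trans (by simp [i₀]))
    have heq := Subalgebra.mem_center_iff.1 hz (P.f x)
    have : (fun j : Fin (finrank K L) => x * c j) = fun j => c j * (σ ^ (j : ℕ)) x := by
      apply P.coeff_injective hσ ha
      simp only [coeff_apply] at heq ⊢
      rw [Finset.mul_sum, Finset.sum_mul] at heq
      simp only [mul_assoc, P.pow_conj, map_mul] at heq ⊢
      exact heq
    have h2 := congrFun this i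
    simp only [mul_comm x, mul_eq_mul_left_iff, h, or_false] at h2
    exact hx h2.symm
  have hz0 : P.coeff c = P.f (c i₀) := by
    rw [coeff_apply, Finset.sum_eq_single i₀ (fun j _ hj => by rw [hc j hj, map_zero, zero_mul])
      (fun h => (h (Finset.mem_univ _)).elim)]
    simp [i₀]
  rw [hz0] at hz ⊢
  have hfix : σ (c i₀) = c i₀ := P.f.toRingHom.injective (by
    have h := Subalgebra.mem_center_iff.1 hz P.u
    rw [P.conj] at h
    exact (P.isUnit_u ha).mul_right_cancel h)
  obtain ⟨k, hk⟩ := (IsGalois.mem_range_algebraMap_iff_fixed _).2 fun g => by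
    exact (Subgroup.zpowers_le.2 (show σ ∈ MulAction.stabilizer (L ≃ₐ[K] L) (c i₀) from hfix))
      (hσ g)
  exact Algebra.mem_bot.2 ⟨k, by rw [← hk, AlgHom.commutes]⟩

include P in
/-- **The cyclic algebra is simple.** -/
theorem isSimpleRing [Nontrivial A] [FiniteDimensional K A] (hσ : ∀ g, g ∈ Subgroup.zpowers σ)
    (ha : a ≠ 0) (hdim : finrank K A = finrank K L ^ 2) : IsSimpleRing A := by
  classical
  refine IsSimpleRing.of_eq_bot_or_eq_top fun I => or_iff_not_imp_left.2 fun hI => ?_
  have hex : ∃ k, ∃ c, P.coeff c ∈ I ∧ c ≠ 0 ∧ (Finset.univ.filter fun i => c i ≠ 0).card = k := by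
    by_contra! h
    refine hI (eq_bot_iff.2 fun y hy => (TwoSidedIdeal.mem_bot _).2 ?_)
    obtain ⟨c, rfl⟩ := (P.coeff_bijective hσ ha hdim).2 y
    by_contra hy0
    exact h _ c hy (fun e => hy0 (by rw [e, map_zero])) rfl
  obtain ⟨c, hcI, hc0, hk⟩ := Nat.find_spec hex
  obtain ⟨i, hi⟩ := Function.ne_iff.1 hc0
  by_cases hall : ∀ j, j ≠ i → c j = 0
  · have he : P.coeff c = P.f (c i) * P.u ^ (i : ℕ) := by
      rw [coeff_apply, Finset.sum_eq_single i (fun j _ hj => by rw [hall j hj, map_zero, zero_mul])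
        (fun h => (h (Finset.mem_univ _)).elim)]
    obtain ⟨w, hw⟩ := ((isUnit_iff_ne_zero.2 hi).map P.f).mul ((P.isUnit_u ha).pow (i : ℕ))
    have := I.mul_mem_left (↑w⁻¹ : A) _ (show (w : A) ∈ I from hw ▸ he ▸ hcI)
    rw [Units.inv_mul] at this
    exact I.one_mem_iff.1 this
  · exfalso
    push Not at hall
    obtain ⟨j, hji, hj⟩ := hall
    obtain ⟨x, hx⟩ : ∃ x, (σ ^ (j : ℕ)) x ≠ (σ ^ (i : ℕ)) x := by
      by_contra! hx
      exact hji (pow_injective hσ (AlgEquiv.ext hx))
    let d : Fin (finrank K L) → L := fun l => c l * ((σ ^ (l : ℕ)) x - (σ ^ (i : ℕ)) x)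
    have hd : P.coeff d ∈ I := by
      have e : P.coeff d = P.coeff c * P.f x - P.f ((σ ^ (i : ℕ)) x) * P.coeff c := by
        simp only [coeff_apply, d, Finset.sum_mul, Finset.mul_sum, ← Finset.sum_sub_distrib,
          mul_assoc, P.pow_conj]
        refine Finset.sum_congr rfl fun l _ => ?_
        simp only [← mul_assoc, ← map_mul, ← sub_mul, ← map_sub]
        rw [mul_sub, mul_comm ((σ ^ (i : ℕ)) x)]
      rw [e]
      exact I.sub_mem (I.mul_mem_right _ _ hcI) (I.mul_mem_left _ _ hcI)
    have hlt : (Finset.univ.filter fun l => d l ≠ 0).card < Nat.find hex := by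
      rw [← hk]
      refine Finset.card_lt_card ((Finset.ssubset_iff_of_subset fun l hl => ?_).2
        ⟨i, by simpa using hi, by simp [d]⟩)
      simp only [Finset.mem_filter, Finset.mem_univ, true_and, d] at hl ⊢
      exact left_ne_zero_of_mul hl
    exact Nat.find_min hex hlt ⟨d, hd, fun e => mul_ne_zero hj (sub_ne_zero.2 hx) (congrFun e j),
      rfl⟩

end Presentation

namespace Presentation

variable {σ : L ≃ₐ[K] L} {a : K} {A : Type*} [Ring A] [Algebra K A] (P : Presentation σ a A)

/-- The powers of `u` are combinations `∑ f(c i) u ^ i`, `i < n`. -/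
theorem pow_mem_range [FiniteDimensional K L] (k : ℕ) : P.u ^ k ∈ LinearMap.range P.coeff :=
  ⟨Pi.single ⟨k % finrank K L, Nat.mod_lt _ Module.finrank_pos⟩
    (algebraMap K L (a ^ (k / finrank K L))), by
    rw [coeff_single, AlgHom.commutes, map_pow, ← P.pow_eq, ← pow_mul, ← pow_add, Nat.div_add_mod]⟩

end Presentation

universe w

/-- **Existence**: for every `a ≠ 0` there is a cyclic algebra `(L/K, σ, a)`. -/
theorem exists_presentation {L : Type w} [Field L] [Algebra K L] [FiniteDimensional K L]
    [IsGalois K L] (σ : L ≃ₐ[K] L) (hσ : ∀ g, g ∈ Subgroup.zpowers σ) {a : K} (ha : a ≠ 0) :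
    ∃ (A : Type w) (_ : Ring A) (_ : Algebra K A) (_ : FiniteDimensional K A) (_ : Nontrivial A)
      (_ : Presentation σ a A), finrank K A = finrank K L ^ 2 := by
  classical
  set n := finrank K L
  have hn : (n : ℤ) ≠ 0 := by exact_mod_cast (Module.finrank_pos (R := K) (M := L)).ne'
  have hα : algebraMap K L a ≠ 0 := (map_ne_zero _).2 ha
  have hσn : σ ^ (n : ℤ) = 1 := by
    rw [zpow_natCast, show n = Nat.card (L ≃ₐ[K] L) from (IsGalois.card_aut_eq_finrank K L).symm]
    exact pow_card_eq_one'
  let V : Submodule L (ℤ → L) :=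
    { carrier := {v | ∀ i, v (i + n) = algebraMap K L a * v i}
      add_mem' := fun {v w} hv hw i => by rw [Pi.add_apply, hv i, hw i, Pi.add_apply, mul_add]
      zero_mem' := fun i => by simp
      smul_mem' := fun c v hv i => by
        rw [Pi.smul_apply, hv i, Pi.smul_apply, smul_eq_mul, smul_eq_mul]; ring }
  let f : L →ₐ[K] Module.End L V :=
    { toFun := fun x =>
        { toFun := fun v => ⟨fun i => (σ ^ i) x * (v : ℤ → L) i, fun i => by
            show (σ ^ (i + n)) x * (v : ℤ → L) (i + n) = _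
            rw [zpow_add, hσn, mul_one, v.2 i]; ring⟩
          map_add' := fun v w => Subtype.ext (funext fun i => mul_add _ _ _)
          map_smul' := fun c v => Subtype.ext (funext fun i => mul_left_comm _ _ _) }
      map_one' := by ext v i; simp
      map_mul' := fun x y => by ext v i; simp [mul_assoc]
      map_zero' := by ext v i; simp
      map_add' := fun x y => by ext v i; simp [add_mul]
      commutes' := fun c => by
        ext v i
        simp [Algebra.smul_def] }
  let u : Module.End L V :=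
    { toFun := fun v => ⟨fun i => (v : ℤ → L) (i + 1), fun i => by
        show (v : ℤ → L) (i + n + 1) = _
        rw [add_right_comm, v.2]⟩
      map_add' := fun v w => rfl
      map_smul' := fun c v => rfl }
  have hpow : ∀ (k : ℕ) (v : V) (i : ℤ), ((u ^ k) v : ℤ → L) i = (v : ℤ → L) (i + k) := by
    intro k
    induction k with
    | zero => intro v i; simp
    | succ k ih =>
      intro v i
      rw [pow_succ', Module.End.mul_apply]
      show ((u ^ k) v : ℤ → L) (i + 1) = _
      rw [ih]
      push_cast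
      ring_nf
  let P : Presentation σ a (Module.End L V) :=
    { f := f
      u := u
      conj := fun x => LinearMap.ext fun v => Subtype.ext (funext fun i => by
        show (σ ^ (i + 1)) x * (v : ℤ → L) (i + 1) = (σ ^ i) (σ x) * (v : ℤ → L) (i + 1)
        rw [zpow_add_one, AlgEquiv.mul_apply])
      pow_eq := LinearMap.ext fun v => Subtype.ext (funext fun i => by
        rw [hpow, v.2]
        simp [Algebra.smul_def]) }
  have : Nontrivial (Module.End L V) := by
    let v₀ : V := ⟨fun i => if (n : ℤ) ∣ i then algebraMap K L a ^ (i / n) else 0, fun i => by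
      by_cases hi : (n : ℤ) ∣ i
      · simp only [dvd_add_self_right, hi, if_true, Int.add_ediv_of_dvd_left hi, Int.ediv_self hn]
        rw [zpow_add_one₀ hα, mul_comm]
      · simp [hi]⟩
    refine ⟨1, 0, fun e => one_ne_zero (α := L) ?_⟩
    simpa [v₀] using congrArg (fun g : Module.End L V => (g v₀ : ℤ → L) 0) e
  let S : Subalgebra K (Module.End L V) := (LinearMap.range P.coeff).toSubalgebra
    ⟨_, P.coeff_one⟩
    (by rintro _ _ ⟨c, rfl⟩ ⟨d, rfl⟩; exact ⟨_, (P.coeff_mul c d).symm⟩)
  have hmem : ∀ x, P.f x ∈ S := fun x =>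
    ⟨Pi.single ⟨0, Module.finrank_pos⟩ x, by rw [P.coeff_single]; simp⟩
  have hu : P.u ∈ S := pow_one P.u ▸ P.pow_mem_range 1
  let e := LinearEquiv.ofInjective P.coeff (P.coeff_injective hσ ha)
  let _ : Ring S := Subalgebra.toRing (A := Module.End L V) S
  have : FiniteDimensional K S := Module.Finite.equiv e
  refine ⟨S, inferInstance, inferInstance, inferInstance, inferInstance,
    { f := P.f.codRestrict S hmem
      u := ⟨P.u, hu⟩
      conj := fun x => Subtype.ext (P.conj x)
      pow_eq := Subtype.ext (by rw [SubmonoidClass.coe_pow]; exact P.pow_eq) }, ?_⟩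
  show finrank K (LinearMap.range P.coeff) = _
  rw [← e.finrank_eq, Module.finrank_pi_fintype, Finset.sum_const, Finset.card_univ,
    Fintype.card_fin, smul_eq_mul, sq]

end FA.CyclicAlgebra

end
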