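import Fermat.Agent.CSA.SkolemNoether
import Fermat.Agent.CyclicAlgebra.Basic
import Mathlib.LinearAlgebra.Matrix.ToLin
import Mathlib.RingTheory.Norm.Transitivity

/-!
# Cyclic algebras and norms

By Skolem–Noether a central simple algebra of degree `n` containing `L` is cyclic, and
`(L/K, σ, a)`, `(L/K, σ, a')` are isomorphic iff `a' / a` is a norm from `L`.
-/

set_option autoImplicit false

noncomputable section

open Module

namespace FA.CyclicAlgebra

variable {K L : Type*} [Field K] [Field L] [Algebra K L] [FiniteDimensional K L] [IsGalois K L]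
  {σ : L ≃ₐ[K] L}

/-- **The norm from a cyclic extension** is the product of the `σ ^ i`. -/
theorem algebraMap_norm_eq (hσ : ∀ g, g ∈ Subgroup.zpowers σ) (x : L) :
    algebraMap K L (Algebra.norm K x) = ∏ i ∈ Finset.range (finrank K L), (σ ^ i) x := by
  rw [Algebra.norm_eq_prod_automorphisms, ← Fin.prod_univ_eq_prod_range (fun i => (σ ^ i) x)]
  exact (Fintype.prod_bijective _ ((Fintype.bijective_iff_injective_and_card _).2
    ⟨Presentation.pow_injective hσ, by
      rw [Fintype.card_fin, ← Nat.card_eq_fintype_card, IsGalois.card_aut_eq_finrank]⟩)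
    (fun i => (σ ^ (i : ℕ)) x) (fun g => g x) fun i => rfl).symm

variable {A : Type*} [Ring A] [Algebra K A] {a : K}

namespace Presentation

variable (P : Presentation σ a A)

/-- Multiplying `u` by an element of `L` multiplies `a` by its norm. -/
def mulNorm (hσ : ∀ g, g ∈ Subgroup.zpowers σ) (c : L) :
    Presentation σ (a * Algebra.norm K c) A where
  f := P.f
  u := P.f c * P.u
  conj x := by rw [mul_assoc, P.conj, ← mul_assoc, ← map_mul, mul_comm c, map_mul, mul_assoc]
  pow_eq := by
    have h : ∀ k : ℕ, (P.f c * P.u) ^ k = P.f (∏ i ∈ Finset.range k, (σ ^ i) c) * P.u ^ k := by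
      intro k
      induction k with
      | zero => simp
      | succ k ih =>
        rw [pow_succ, ih, mul_assoc, ← mul_assoc (P.u ^ k), P.pow_conj, ← mul_assoc, ← mul_assoc,
          ← map_mul, Finset.prod_range_succ, mul_assoc, ← pow_succ]
    rw [h, P.pow_eq, ← algebraMap_norm_eq hσ, AlgHom.commutes, ← map_mul, mul_comm]

omit [FiniteDimensional K L] [IsGalois K L] in
/-- Transport along an isomorphism. -/
def map {B : Type*} [Ring B] [Algebra K B] (φ : A ≃ₐ[K] B) : Presentation σ a B where
  f := φ.toAlgHom.comp P.f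
  u := φ P.u
  conj x := by simp only [AlgHom.comp_apply, AlgEquiv.coe_toAlgHom, ← map_mul, P.conj]
  pow_eq := by rw [← map_pow, P.pow_eq, AlgEquiv.commutes]

end Presentation

/-- `End_K L` is `(L/K, σ, 1)`. -/
def presentationEnd : Presentation σ (1 : K) (Module.End K L) where
  f := Algebra.lmul K L
  u := σ.toLinearMap
  conj x := LinearMap.ext fun y => by
    show σ (x * y) = σ x * σ y
    exact map_mul σ x y
  pow_eq := by
    have h : ∀ k : ℕ, (σ.toLinearMap : Module.End K L) ^ k = (σ ^ k).toLinearMap := by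
      intro k
      induction k with
      | zero => rfl
      | succ k ih => rw [pow_succ, ih, pow_succ]; rfl
    have hn : σ ^ finrank K L = 1 := by
      rw [← IsGalois.card_aut_eq_finrank K L]; exact pow_card_eq_one'
    rw [h, hn, map_one]
    rfl

variable [IsSimpleRing A] [Algebra.IsCentral K A] [FiniteDimensional K A]

omit [IsGalois K L] in
/-- In a central simple algebra of degree `[L:K]` a copy of `L` is its own centraliser. -/
theorem exists_eq_of_commute (hdim : finrank K A = finrank K L ^ 2) (f : L →ₐ[K] A) {t : A}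
    (ht : ∀ x, f x * t = t * f x) : ∃ c, f c = t := by
  have hf : Function.Injective f := f.toRingHom.injective
  let e := AlgEquiv.ofInjective f hf
  have : IsSimpleRing f.range := IsSimpleRing.of_ringEquiv e.toRingEquiv inferInstance
  have h := FA.CSA.finrank_centralizer f.range
  rw [← e.toLinearEquiv.finrank_eq, hdim, sq] at h
  have heq : f.range = Subalgebra.centralizer K (f.range : Set A) :=
    Subalgebra.eq_of_le_of_finrank_eq
      (fun b hb => (Subalgebra.mem_centralizer_iff K).2 fun g hg => by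
        obtain ⟨y, rfl⟩ := hb
        obtain ⟨z, rfl⟩ := hg
        show f z * f y = f y * f z
        rw [← map_mul, mul_comm, map_mul])
      (by rw [← e.toLinearEquiv.finrank_eq, Nat.eq_of_mul_eq_mul_left Module.finrank_pos h])
  have hmem : t ∈ Subalgebra.centralizer K (f.range : Set A) :=
    (Subalgebra.mem_centralizer_iff K).2 fun g hg => by
      obtain ⟨z, rfl⟩ := hg
      exact ht z
  rw [← heq] at hmem
  exact hmem

/-- **Every central simple algebra of degree `[L:K]` containing `L` is cyclic.** -/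
theorem exists_presentation_of_embedding (hσ : ∀ g, g ∈ Subgroup.zpowers σ)
    (hdim : finrank K A = finrank K L ^ 2) (f : L →ₐ[K] A) :
    ∃ a : K, a ≠ 0 ∧ Nonempty (Presentation σ a A) := by
  obtain ⟨u, hu⟩ := FA.CSA.exists_conj f (f.comp σ.toAlgHom)
  have hconj : ∀ x, (u : A) * f x = f (σ x) * u := fun x => by
    rw [show f (σ x) = (f.comp σ.toAlgHom) x from rfl, hu, Units.inv_mul_cancel_right]
  have hpow : ∀ (k : ℕ) x, (u : A) ^ k * f x = f ((σ ^ k) x) * (u : A) ^ k := by
    intro k
    induction k with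
    | zero => simp
    | succ k ih =>
      intro x
      rw [pow_succ', mul_assoc, ih, ← mul_assoc, hconj, mul_assoc, pow_succ', AlgEquiv.mul_apply]
  have hn : σ ^ finrank K L = 1 := by
    rw [← IsGalois.card_aut_eq_finrank K L]; exact pow_card_eq_one'
  obtain ⟨b, hb⟩ := exists_eq_of_commute hdim f (t := (u : A) ^ finrank K L) fun x => by
    rw [hpow, hn, AlgEquiv.one_apply]
  have hfix : σ b = b := f.toRingHom.injective (by
    have h := hconj b
    rw [hb, ← pow_succ', pow_succ] at h
    exact (u.isUnit.mul_right_cancel h).symm.trans hb.symm)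
  obtain ⟨a, ha⟩ := (IsGalois.mem_range_algebraMap_iff_fixed b).2 fun g =>
    (Subgroup.zpowers_le.2 (show σ ∈ MulAction.stabilizer (L ≃ₐ[K] L) b from hfix)) (hσ g)
  have hpow_eq : (u : A) ^ finrank K L = algebraMap K A a := by
    rw [← hb, ← ha, AlgHom.commutes]
  refine ⟨a, fun h => ?_, ⟨⟨f, u, hconj, hpow_eq⟩⟩⟩
  rw [h, map_zero] at hpow_eq
  exact (u.isUnit.pow _).ne_zero hpow_eq

/-- Two presentations of the same algebra differ by a norm. -/
theorem exists_norm_of_presentations (hσ : ∀ g, g ∈ Subgroup.zpowers σ) {a' : K}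
    (hdim : finrank K A = finrank K L ^ 2) (P : Presentation σ a A) (Q : Presentation σ a' A)
    (ha : a ≠ 0) : ∃ c : L, a' = a * Algebra.norm K c := by
  obtain ⟨w, hw⟩ := FA.CSA.exists_conj P.f Q.f
  obtain ⟨u, hu⟩ := P.isUnit_u ha
  let v : Aˣ := w * u * w⁻¹
  have hv : ∀ x, (v : A) * Q.f x = Q.f (σ x) * v := fun x => by
    simp only [v, hw, Units.val_mul, mul_assoc, Units.inv_mul_cancel_left]
    rw [hu, ← mul_assoc P.u, P.conj, mul_assoc]
  let R : Presentation σ a A :=
    { f := Q.f
      u := v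
      conj := hv
      pow_eq := by
        rw [← Units.val_pow_eq_pow_val, conj_pow, Units.val_mul, Units.val_mul,
          Units.val_pow_eq_pow_val, hu, P.pow_eq, ← Algebra.commutes, mul_assoc, Units.mul_inv,
          mul_one] }
  obtain ⟨c, hc⟩ := exists_eq_of_commute hdim Q.f (t := Q.u * (↑v⁻¹ : A)) fun x => by
    have h : ∀ x, (↑v⁻¹ : A) * Q.f (σ x) = Q.f x * (↑v⁻¹ : A) := fun x => by
      rw [Units.inv_mul_eq_iff_eq_mul, ← mul_assoc, hv, Units.mul_inv_cancel_right]
    obtain ⟨y, rfl⟩ := σ.surjective x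
    rw [mul_assoc Q.u, h, ← mul_assoc Q.u, Q.conj, ← mul_assoc]
  refine ⟨c, (algebraMap K A).injective ?_⟩
  rw [← Q.pow_eq, ← (R.mulNorm hσ c).pow_eq]
  congr 1
  show Q.u = Q.f c * (v : A)
  rw [hc, Units.inv_mul_cancel_right]

/-- **Isomorphism criterion.** -/
theorem nonempty_algEquiv_iff (hσ : ∀ g, g ∈ Subgroup.zpowers σ) {a' : K}
    {B : Type*} [Ring B] [Algebra K B] [Nontrivial B] [FiniteDimensional K B]
    (hA : finrank K A = finrank K L ^ 2) (hB : finrank K B = finrank K L ^ 2)
    (P : Presentation σ a A) (Q : Presentation σ a' B) (ha : a ≠ 0) (ha' : a' ≠ 0) :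
    Nonempty (A ≃ₐ[K] B) ↔ ∃ c : L, a' = a * Algebra.norm K c := by
  refine ⟨fun ⟨φ⟩ => exists_norm_of_presentations hσ hA P (Q.map φ.symm) ha, ?_⟩
  rintro ⟨c, rfl⟩
  exact (P.mulNorm hσ c).nonempty_algEquiv Q hσ ha' hA hB

/-- **Splitting criterion**: `(L/K, σ, a)` is a matrix algebra iff `a` is a norm from `L`. -/
theorem nonempty_matrix_iff (hσ : ∀ g, g ∈ Subgroup.zpowers σ)
    (hA : finrank K A = finrank K L ^ 2) (P : Presentation σ a A) (ha : a ≠ 0) :
    Nonempty (A ≃ₐ[K] Matrix (Fin (finrank K L)) (Fin (finrank K L)) K) ↔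
      ∃ x : L, Algebra.norm K x = a := by
  let e : Module.End K L ≃ₐ[K] Matrix (Fin (finrank K L)) (Fin (finrank K L)) K :=
    algEquivMatrix (Module.finBasis K L)
  have hE : finrank K (Module.End K L) = finrank K L ^ 2 := by
    rw [Module.finrank_linearMap, sq]
  have h := nonempty_algEquiv_iff hσ hA hE P presentationEnd ha one_ne_zero
  refine ⟨fun ⟨φ⟩ => ?_, fun ⟨x, hx⟩ => ?_⟩
  · obtain ⟨c, hc⟩ := h.1 ⟨φ.trans e.symm⟩
    have hc0 : c ≠ 0 := fun h0 => one_ne_zero (α := K) (by rw [hc, h0, Algebra.norm_zero, mul_zero])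
    refine ⟨c⁻¹, ?_⟩
    rw [← mul_one (Algebra.norm K c⁻¹), hc, mul_left_comm, ← map_mul, inv_mul_cancel₀ hc0, map_one,
      mul_one]
  · have hx0 : x ≠ 0 := fun h0 => ha (by rw [← hx, h0, Algebra.norm_zero])
    obtain ⟨φ⟩ := h.2 ⟨x⁻¹, by rw [← hx, ← map_mul, mul_inv_cancel₀ hx0, map_one]⟩
    exact ⟨φ.trans e⟩

end FA.CyclicAlgebra

end
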