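import Fermat.Agent.CyclicAlgebra.Local
import Fermat.Agent.HasseNorm.Conic
import Fermat.Agent.QuadFormsNF.Local

/-!
# The theorem of Albert, Brauer, Hasse and Noether for cyclic algebras

A cyclic algebra over a number field splits if it splits at every prime and every real embedding:
at such a place `a` is a limit of norms, so the norm theorem of Hasse applies.
-/

set_option autoImplicit false

noncomputable section

open NumberField NumberField.InfinitePlace IsDedekindDomain WithZero
open scoped TensorProduct nonZeroDivisors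

namespace FA.CyclicAlgebra

open FA.ArtinRec FA.HasseCyclic

variable {K L : Type*} [Field K] [NumberField K] [Field L] [NumberField L] [Algebra K L]
  [IsGalois K L] {σ : L ≃ₐ[K] L} {a : K} {A : Type*} [Ring A] [Algebra K A] [IsSimpleRing A]
  [Algebra.IsCentral K A] [FiniteDimensional K A]

omit [IsSimpleRing A] [Algebra.IsCentral K A] [FiniteDimensional K A] in
/-- Splitting at a prime makes `a` a local norm there. -/
theorem exists_norm_near [Nontrivial A] (hσ : ∀ g, g ∈ Subgroup.zpowers σ) (P : Presentation σ a A)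
    (ha : a ≠ 0) (v : HeightOneSpectrum (𝓞 K))
    (h : Nonempty (v.adicCompletion K ⊗[K] A ≃ₐ[v.adicCompletion K]
      Matrix (Fin (Module.finrank K L)) (Fin (Module.finrank K L)) (v.adicCompletion K)))
    (k : ℕ) :
    ∃ x : L, x ≠ 0 ∧ v.valuation K (a / Algebra.norm K x - 1) ≤ exp (-(k : ℤ)) := by
  have := FA.QuadFormsNF.charZero_completion v
  obtain ⟨π, hπ⟩ := v.valuation_exists_uniformizer K
  have hπ0 : π ≠ 0 := fun h => exp_ne_zero (hπ.symm.trans (by rw [h, map_zero]))
  set E := v.adicCompletion K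
  set α := algebraMap K E a with hα
  set δ := algebraMap K E (π ^ k) with hδ
  have hα0 : α ≠ 0 := (map_ne_zero _).2 ha
  set B : Set E := {z | (Valued.v (R := E)).restrict z < (Valued.v (R := E)).restrict δ} with hB
  have hBo : IsOpen B := Valued.isOpen_ball E _
  have hg : ContinuousAt (fun z => α / z - 1) α :=
    (continuousAt_const.div continuousAt_id hα0).sub continuousAt_const
  have h1 : α / α - 1 ∈ B := by
    rw [div_self hα0, sub_self, hB, Set.mem_ofPred_eq, Valuation.restrict_lt_iff, map_zero]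
    exact zero_lt_iff.2 ((Valuation.ne_zero_iff _).2 ((map_ne_zero _).2 (pow_ne_zero k hπ0)))
  have hnhds : (fun z => α / z - 1) ⁻¹' B ∩ {z | z ≠ 0} ∈ nhds α :=
    Filter.inter_mem (hg.preimage_mem_nhds (hBo.mem_nhds h1)) (isOpen_ne.mem_nhds hα0)
  obtain ⟨_, ⟨hb, hne⟩, x, rfl⟩ := mem_closure_iff_nhds.1
    (mem_closure_norms (HeightOneSpectrum.denseRange_algebraMap K v) P hσ h) _ hnhds
  refine ⟨x, fun h0 => hne (by simp [h0]), ?_⟩
  have hlt : Valued.v (α / algebraMap K E (Algebra.norm K x) - 1) < Valued.v δ :=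
    (Valuation.restrict_lt_iff _).1 hb
  rw [hα, hδ, ← map_div₀, ← map_one (algebraMap K E), ← map_sub] at hlt
  have hlt' : v.valuation K (a / Algebra.norm K x - 1) < v.valuation K (π ^ k) :=
    ((v.valuedAdicCompletion_eq_valuation' _).symm.trans_lt hlt).trans_eq
      (v.valuedAdicCompletion_eq_valuation' _)
  rw [map_pow (v.valuation K), hπ, ← exp_nsmul] at hlt'
  exact hlt'.le.trans (le_of_eq (by simp))

omit [IsSimpleRing A] [Algebra.IsCentral K A] [FiniteDimensional K A] in
/-- Splitting at a ramified real place makes `a` positive there. -/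
theorem pos_of_split_real [Nontrivial A] (hσ : ∀ g, g ∈ Subgroup.zpowers σ)
    (P : Presentation σ a A) (ha : a ≠ 0) {w : InfinitePlace K} (hw : ¬ w.IsUnramifiedIn L)
    (hr : IsReal w)
    (h : letI := (embedding_of_isReal hr).toAlgebra
      Nonempty (ℝ ⊗[K] A ≃ₐ[ℝ] Matrix (Fin (Module.finrank K L)) (Fin (Module.finrank K L)) ℝ)) :
    0 < embedding_of_isReal hr a := by
  set φ := embedding_of_isReal hr
  let _ : Algebra K ℝ := φ.toAlgebra
  have hdense : DenseRange (algebraMap K ℝ) := by
    refine Dense.mono ?_ Rat.denseRange_cast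
    rintro _ ⟨q, rfl⟩
    exact ⟨(q : K), map_ratCast φ q⟩
  by_contra hle
  have hlt : φ a < 0 := lt_of_le_of_ne (not_lt.1 hle) ((map_ne_zero φ).2 ha)
  obtain ⟨_, hneg, x, rfl⟩ := mem_closure_iff_nhds.1
    (mem_closure_norms hdense P hσ h) _ (Iio_mem_nhds hlt)
  have hx : x ≠ 0 := fun h0 => by simp [h0] at hneg
  exact lt_asymm hneg (norm_pos_of_ramified hσ hw hr (Units.mk0 x hx))

/-- **Albert–Brauer–Hasse–Noether for cyclic algebras.** -/
theorem nonempty_matrix_iff_local (hσ : ∀ g, g ∈ Subgroup.zpowers σ) (P : Presentation σ a A)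
    (ha : a ≠ 0) (hA : Module.finrank K A = Module.finrank K L ^ 2) :
    Nonempty (A ≃ₐ[K] Matrix (Fin (Module.finrank K L)) (Fin (Module.finrank K L)) K) ↔
      (∀ v : HeightOneSpectrum (𝓞 K), Nonempty (v.adicCompletion K ⊗[K] A ≃ₐ[v.adicCompletion K]
        Matrix (Fin (Module.finrank K L)) (Fin (Module.finrank K L)) (v.adicCompletion K))) ∧
      ∀ φ : K →+* ℝ, letI := φ.toAlgebra
        Nonempty (ℝ ⊗[K] A ≃ₐ[ℝ]
          Matrix (Fin (Module.finrank K L)) (Fin (Module.finrank K L)) ℝ) := by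
  refine ⟨fun ⟨e⟩ => ⟨fun v => split_of_split e, fun φ =>
      letI := φ.toAlgebra; split_of_split e⟩,
    fun ⟨hloc, hreal⟩ => ?_⟩
  rw [nonempty_matrix_iff hσ hA P ha]
  obtain ⟨x, hx⟩ := exists_norm_eq hσ (a := Units.mk0 a ha) (fun v => mem_locNorms.2 fun k => by
      obtain ⟨x, hx0, hx⟩ := exists_norm_near hσ P ha v (hloc v) k
      exact ⟨Units.mk0 x hx0, hx⟩)
    fun w hw h => pos_of_split_real hσ P ha hw h (hreal _)
  exact ⟨(x : L), congrArg Units.val hx⟩

end FA.CyclicAlgebra

end
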