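import Fermat.Agent.CyclicAlgebra.Splitting
import Fermat.Agent.Tsen.Division
import Mathlib.Algebra.MvPolynomial.Funext
import Mathlib.FieldTheory.PrimitiveElement
import Mathlib.GroupTheory.CosetCover
import Mathlib.RingTheory.Flat.Basic
import Mathlib.RingTheory.MatrixAlgebra
import Mathlib.Topology.Algebra.MvPolynomial

/-!
# Cyclic algebras that split over an extension

If `(L/K, σ, a)` splits over `E ⊇ K`, then `a` is a value over `E` of the norm form of `L/K`; so it
is a limit of norms when `K` is dense in the topological field `E`.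
-/

set_option autoImplicit false

noncomputable section

open scoped TensorProduct
open Module Polynomial

namespace FA.CyclicAlgebra

/-- **A cyclic vector**: if `p(T) = 0`, `deg p = n` and no smaller polynomial kills `T`, some vector
is killed by no smaller polynomial. -/
theorem exists_cyclic_vector {E V : Type*} [Field E] [Infinite E] [AddCommGroup V] [Module E V]
    (T : Module.End E V) {p : E[X]} (hp : p.Monic) (hpT : aeval T p = 0)
    (hsmall : ∀ g : E[X], g ≠ 0 → g.natDegree < p.natDegree → aeval T g ≠ 0) :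
    ∃ v : V, ∀ g : E[X], g.natDegree < p.natDegree → aeval T g v = 0 → g = 0 := by
  classical
  let S := (UniqueFactorizationMonoid.normalizedFactors p).toFinset
  let s : ↥S → E[X] := fun q => p / (q : E[X])
  have hs : ∀ q : ↥S, p = (q : E[X]) * s q ∧ aeval T (s q) ≠ 0 := fun q => by
    have hq := Multiset.mem_toFinset.1 q.2
    have hirr := UniqueFactorizationMonoid.irreducible_of_normalized_factor _ hq
    have heq : p = (q : E[X]) * s q := (EuclideanDomain.mul_div_cancel' hirr.ne_zero
      (UniqueFactorizationMonoid.dvd_of_mem_normalizedFactors hq)).symm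
    have hs0 : s q ≠ 0 := fun h => hp.ne_zero (by rw [heq, h, mul_zero])
    refine ⟨heq, hsmall _ hs0 ?_⟩
    rw [heq, natDegree_mul hirr.ne_zero hs0]
    exact Nat.lt_add_of_pos_left hirr.natDegree_pos
  obtain ⟨v, hv⟩ : ∃ v, ∀ q, aeval T (s q) v ≠ 0 := by
    by_contra! h
    obtain ⟨q, hq⟩ := Subspace.exists_eq_top_of_iUnion_eq_univ
      (p := fun q => LinearMap.ker (aeval T (s q)))
      (Set.eq_univ_of_forall fun v => by
        obtain ⟨q, hq⟩ := h v
        exact Set.mem_iUnion.2 ⟨q, hq⟩)
    exact (hs q).2 (LinearMap.ker_eq_top.1 hq)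
  refine ⟨v, fun g hg hgv => ?_⟩
  by_contra hg0
  obtain ⟨r, hr⟩ := EuclideanDomain.gcd_dvd_right g p
  set d := EuclideanDomain.gcd g p with hd
  have hdv : aeval T d v = 0 := by
    rw [hd, EuclideanDomain.gcd_eq_gcd_ab, mul_comm g, mul_comm p, map_add, map_mul, map_mul,
      LinearMap.add_apply, Module.End.mul_apply, Module.End.mul_apply, hgv, hpT,
      LinearMap.zero_apply, map_zero, map_zero, add_zero]
  have hd0 : d ≠ 0 := fun h => hp.ne_zero (by rw [hr, h, zero_mul])
  have hr0 : r ≠ 0 := fun h => hp.ne_zero (by rw [hr, h, mul_zero])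
  have hru : ¬ IsUnit r := fun h => by
    have h1 := natDegree_le_of_dvd (EuclideanDomain.gcd_dvd_left g p) hg0
    rw [← hd] at h1
    rw [hr, natDegree_mul hd0 hr0, natDegree_eq_zero_of_isUnit h] at hg
    omega
  obtain ⟨q₀, hq₀, hq₀r⟩ := WfDvdMonoid.exists_irreducible_factor hru hr0
  obtain ⟨q, hq, hqq⟩ := UniqueFactorizationMonoid.exists_mem_normalizedFactors_of_dvd hp.ne_zero
    hq₀ (hq₀r.trans ⟨d, hr.trans (mul_comm d r)⟩)
  obtain ⟨r', hr'⟩ := (hqq.symm.dvd.trans hq₀r : q ∣ r)
  refine hv ⟨q, Multiset.mem_toFinset.2 hq⟩ ?_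
  have heq : p = q * s ⟨q, Multiset.mem_toFinset.2 hq⟩ := (hs ⟨q, _⟩).1
  have hsd : s ⟨q, Multiset.mem_toFinset.2 hq⟩ = r' * d :=
    mul_left_cancel₀ (UniqueFactorizationMonoid.irreducible_of_normalized_factor _ hq).ne_zero
      (heq.symm.trans (by rw [hr, hr']; ring))
  rw [hsd, map_mul, Module.End.mul_apply, hdv, map_zero]

variable {K L : Type*} [Field K] [Infinite K] [Field L] [Algebra K L] [FiniteDimensional K L]
  [IsGalois K L] {σ : L ≃ₐ[K] L} {a : K} {A : Type*} [Ring A] [Algebra K A]
  {E : Type*} [Field E] [Infinite E] [Algebra K E]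

/-- **If `(L/K, σ, a)` splits over `E` then `a` is a value of the norm form over `E`.** -/
theorem exists_value_of_split [Nontrivial A] (P : Presentation σ a A)
    (hσ : ∀ g, g ∈ Subgroup.zpowers σ)
    (e : E ⊗[K] A ≃ₐ[E] Matrix (Fin (finrank K L)) (Fin (finrank K L)) E)
    (b : Basis (Fin (finrank K L)) K L) (Q : MvPolynomial (Fin (finrank K L)) K)
    (hQ : ∀ x, MvPolynomial.eval x Q = Algebra.norm K (∑ k, x k • b k)) :
    ∃ c : Fin (finrank K L) → E, MvPolynomial.aeval c Q = algebraMap K E a := by
  classical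
  let n := finrank K L
  let pb := Field.powerBasisOfFiniteOfSeparable K L
  have hpb : pb.dim = n := pb.finrank.symm
  let φ : E ⊗[K] L →ₐ[E] Module.End E (Fin n → E) :=
    (Matrix.toLinAlgEquiv'.toAlgHom.comp e.toAlgHom).comp
      (Algebra.TensorProduct.map (AlgHom.id E E) P.f)
  have hφ : Function.Injective φ := by
    have h1 : Function.Injective (Algebra.TensorProduct.map (AlgHom.id E E) P.f) :=
      Module.Flat.lTensor_preserves_injective_linearMap (M := E) P.f.toLinearMap
        P.f.toRingHom.injective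
    exact (Matrix.toLinAlgEquiv'.injective.comp e.injective).comp h1
  let θ : E ⊗[K] L := (1 : E) ⊗ₜ pb.gen
  have hbasis : ∀ i, Algebra.TensorProduct.basis E pb.basis i = θ ^ (i : ℕ) := fun i => by
    rw [Algebra.TensorProduct.basis_apply, pb.basis_eq_pow, Algebra.TensorProduct.tmul_pow, one_pow]
  -- no polynomial of degree `< n` kills `θ`
  have hindep : ∀ g : E[X], g.natDegree < n → aeval θ g = 0 → g = 0 := fun g hg hg0 => by
    rw [aeval_eq_sum_range' (hg.trans_le hpb.ge), ← Fin.sum_univ_eq_sum_range
      (fun i => g.coeff i • θ ^ i)] at hg0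
    simp only [← hbasis] at hg0
    ext i
    rcases lt_or_ge i pb.dim with hi | hi
    · exact Fintype.linearIndependent_iff.1
        (Algebra.TensorProduct.basis E pb.basis).linearIndependent
        (fun i => g.coeff i) hg0 ⟨i, hi⟩
    · exact coeff_eq_zero_of_natDegree_lt (hg.trans_le (hpb.ge.trans hi))
  set p := (minpoly K pb.gen).map (algebraMap K E)
  have hp : p.Monic := (minpoly.monic (.of_finite K pb.gen)).map _
  have hpdeg : p.natDegree = n := by rw [natDegree_map, pb.natDegree_minpoly, hpb]
  have hpθ : aeval θ p = 0 := by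
    rw [aeval_map_algebraMap,
      show θ = (Algebra.TensorProduct.includeRight : L →ₐ[K] E ⊗[K] L) pb.gen from rfl,
      aeval_algHom_apply, minpoly.aeval, map_zero]
  obtain ⟨v, hv⟩ := exists_cyclic_vector (φ θ) hp (by rw [aeval_algHom_apply, hpθ, map_zero])
    fun g hg0 hg h => hg0 (hindep g (hg.trans_eq hpdeg) (hφ (by
      rw [← aeval_algHom_apply, h, map_zero])))
  let ψ : E ⊗[K] L →ₗ[E] Fin n → E :=
    { toFun := fun z => φ z v
      map_add' := fun z z' => by rw [map_add, LinearMap.add_apply]
      map_smul' := fun c z => by rw [map_smul, LinearMap.smul_apply, RingHom.id_apply] }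
  have hψ : Function.Injective ψ := by
    rw [injective_iff_map_eq_zero]
    intro z hz
    let g : E[X] := ∑ i : Fin pb.dim,
      monomial (i : ℕ) ((Algebra.TensorProduct.basis E pb.basis).repr z i)
    have hgz : aeval θ g = z := by
      simp only [g, map_sum, aeval_monomial, ← Algebra.smul_def, ← hbasis]
      exact (Algebra.TensorProduct.basis E pb.basis).sum_repr z
    have hn0 : 0 < n := Module.finrank_pos
    have hgdeg : g.natDegree < n := lt_of_le_of_lt (natDegree_sum_le_of_forall_le _ _
      fun i _ => (natDegree_monomial_le _).trans (Nat.le_sub_one_of_lt i.isLt)) (by omega)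
    have h0 : g = 0 := hv g (hgdeg.trans_eq hpdeg.symm) (by
      rw [aeval_algHom_apply, hgz]; exact hz)
    rw [← hgz, h0, map_zero]
  have hψs : Function.Surjective ψ := (LinearMap.injective_iff_surjective_of_finrank_eq_finrank
    (by rw [Module.finrank_baseChange, Module.finrank_fin_fun])).1 hψ
  -- the action of `u`
  let τ : ℕ → E ⊗[K] L →ₐ[E] E ⊗[K] L := fun i =>
    Algebra.TensorProduct.map (AlgHom.id E E) (σ ^ i).toAlgHom
  set U : Module.End E (Fin n → E) := Matrix.toLinAlgEquiv' (e ((1 : E) ⊗ₜ P.u))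
  have hU : ∀ z, U * φ z = φ (τ 1 z) * U := fun z => by
    induction z using TensorProduct.induction_on with
    | zero => simp
    | tmul r x =>
      simp only [U, φ, τ, AlgHom.comp_apply, Algebra.TensorProduct.map_tmul, AlgHom.coe_id, id_eq,
        AlgEquiv.coe_toAlgHom, pow_one]
      rw [← map_mul, ← map_mul, ← map_mul, ← map_mul, Algebra.TensorProduct.tmul_mul_tmul,
        Algebra.TensorProduct.tmul_mul_tmul, P.conj, one_mul, mul_one]
    | add y z hy hz => simp only [map_add, mul_add, add_mul, hy, hz]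
  have hτ : ∀ i z, τ 1 (τ i z) = τ (i + 1) z := fun i z => by
    induction z using TensorProduct.induction_on with
    | zero => simp
    | tmul r x => simp [τ, pow_succ', AlgEquiv.mul_apply]
    | add y z hy hz => simp only [map_add, hy, hz]
  obtain ⟨c, hc⟩ := hψs (U v)
  have hpow : ∀ k : ℕ, (U ^ k) v = φ (∏ i ∈ Finset.range k, τ i c) v := fun k => by
    induction k with
    | zero => simp
    | succ k ih =>
      rw [pow_succ', Module.End.mul_apply, ih, ← Module.End.mul_apply, hU, Module.End.mul_apply,
        show U v = φ c v from hc.symm, ← Module.End.mul_apply, ← map_mul, map_prod,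
        Finset.prod_range_succ']
      congr 3
      · exact Finset.prod_congr rfl fun i _ => hτ i c
      · show c = τ 0 c
        clear hc ih
        induction c using TensorProduct.induction_on with
        | zero => simp
        | tmul r x => simp [τ]
        | add y z hy hz => rw [map_add, ← hy, ← hz]
  have hprod : ∏ i ∈ Finset.range n, τ i c = algebraMap K (E ⊗[K] L) a := by
    refine hψ ((hpow n).symm.trans ?_)
    show (U ^ n) v = φ (algebraMap K (E ⊗[K] L) a) v
    rw [← map_pow, ← map_pow, Algebra.TensorProduct.tmul_pow, one_pow, P.pow_eq,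
      Algebra.TensorProduct.algebraMap_apply]
    simp only [φ, AlgHom.comp_apply, Algebra.TensorProduct.map_tmul, AlgHom.coe_id, id_eq, map_one,
      AlgEquiv.coe_toAlgHom]
    rw [Algebra.algebraMap_eq_smul_one a, ← TensorProduct.smul_tmul,
      ← Algebra.algebraMap_eq_smul_one]
  -- the norm form
  have hQL : (∏ i ∈ Finset.range n, ∑ k, MvPolynomial.C ((σ ^ i) (b k)) * MvPolynomial.X k) =
      MvPolynomial.map (algebraMap K L) Q := by
    refine MvPolynomial.funext_set (fun _ => Set.range (algebraMap K L))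
      (fun _ => Set.infinite_range_of_injective (algebraMap K L).injective) fun y hy => ?_
    choose x hx using fun k => hy k trivial
    rw [MvPolynomial.eval_map, ← funext hx,
      show (fun k => algebraMap K L (x k)) = algebraMap K L ∘ x from rfl,
      ← MvPolynomial.eval₂_comp, hQ, algebraMap_norm_eq hσ, map_prod]
    refine Finset.prod_congr rfl fun i _ => ?_
    rw [map_sum, map_sum]
    refine Finset.sum_congr rfl fun k _ => ?_
    rw [Algebra.smul_def, map_mul, map_mul, AlgEquiv.commutes, MvPolynomial.eval_C,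
      MvPolynomial.eval_X]
    exact mul_comm _ _
  set bE := Algebra.TensorProduct.basis E b
  refine ⟨fun k => bE.repr c k, ?_⟩
  have h := congrArg (MvPolynomial.eval₂Hom
    (Algebra.TensorProduct.includeRight : L →ₐ[K] E ⊗[K] L).toRingHom
    (fun k => algebraMap E (E ⊗[K] L) (bE.repr c k))) hQL
  rw [map_prod, MvPolynomial.coe_eval₂Hom, MvPolynomial.eval₂_map] at h
  have hfac : ∀ i, MvPolynomial.eval₂
      (Algebra.TensorProduct.includeRight : L →ₐ[K] E ⊗[K] L).toRingHom
      (fun k => algebraMap E (E ⊗[K] L) (bE.repr c k))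
      (∑ k, MvPolynomial.C ((σ ^ i) (b k)) * MvPolynomial.X k) = τ i c := fun i => by
    conv_rhs => rw [← bE.sum_repr c, map_sum]
    simp only [MvPolynomial.eval₂_sum, MvPolynomial.eval₂_mul, MvPolynomial.eval₂_C,
      MvPolynomial.eval₂_X, map_smul, bE, Algebra.TensorProduct.basis_apply, τ,
      Algebra.TensorProduct.map_tmul, AlgHom.coe_id, id_eq]
    exact Finset.sum_congr rfl fun k _ => by
      rw [Algebra.smul_def, mul_comm]; rfl
  simp only [hfac] at h
  rw [hprod, AlgHom.toRingHom_eq_coe, AlgHom.comp_algebraMap] at h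
  apply (algebraMap E (E ⊗[K] L)).injective
  rw [← IsScalarTower.algebraMap_apply, h, MvPolynomial.aeval_def, MvPolynomial.eval₂_comp_left,
    ← IsScalarTower.algebraMap_eq]
  rfl

omit [Infinite K] [Infinite E] in
/-- **Split algebras split over every extension.** -/
theorem split_of_split {n : ℕ} (φ : A ≃ₐ[K] Matrix (Fin n) (Fin n) K) :
    Nonempty (E ⊗[K] A ≃ₐ[E] Matrix (Fin n) (Fin n) E) := by
  let g : E ⊗[K] Matrix (Fin n) (Fin n) K ≃ₐ[K] Matrix (Fin n) (Fin n) E :=
    (matrixEquivTensor (Fin n) K E).symm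
  exact ⟨(Algebra.TensorProduct.congr (AlgEquiv.refl : E ≃ₐ[E] E) φ).trans
    (AlgEquiv.ofRingEquiv (f := g.toRingEquiv) fun r => by
      show g (r ⊗ₜ 1) = _
      rw [show g (r ⊗ₜ 1) = r • (1 : Matrix (Fin n) (Fin n) K).map (algebraMap K E) from rfl,
        Matrix.map_one _ (map_zero _) (map_one _), Algebra.algebraMap_eq_smul_one])⟩

/-- **`a` is a limit of norms** in a field where `K` is dense and the algebra splits. -/
theorem mem_closure_norms [TopologicalSpace E] [IsTopologicalRing E] [Nontrivial A]
    (hdense : DenseRange (algebraMap K E)) (P : Presentation σ a A)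
    (hσ : ∀ g, g ∈ Subgroup.zpowers σ)
    (h : Nonempty (E ⊗[K] A ≃ₐ[E] Matrix (Fin (finrank K L)) (Fin (finrank K L)) E)) :
    algebraMap K E a ∈ closure (Set.range fun x : L => algebraMap K E (Algebra.norm K x)) := by
  classical
  obtain ⟨e⟩ := h
  let b := Module.finBasis K L
  obtain ⟨Q, -, hQ⟩ := FA.Tsen.exists_det_form fun k => Algebra.leftMulMatrix b (b k)
  have hQ' : ∀ x, MvPolynomial.eval x Q = Algebra.norm K (∑ k, x k • b k) := fun x => by
    rw [hQ, Algebra.norm_eq_matrix_det b, map_sum]
    simp [map_smul]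
  obtain ⟨c, hc⟩ := exists_value_of_split P hσ e b Q hQ'
  rw [← hc]
  have hcont : Continuous fun y : Fin (finrank K L) → E => MvPolynomial.aeval y Q := by
    simp only [MvPolynomial.aeval_def, ← MvPolynomial.eval_map]
    exact MvPolynomial.continuous_eval _
  have hd : Dense (Set.range fun x : Fin (finrank K L) → K => algebraMap K E ∘ x) :=
    DenseRange.piMap fun _ => hdense
  refine closure_mono ?_ (image_closure_subset_closure_image hcont ⟨c, hd c, rfl⟩)
  rintro _ ⟨_, ⟨x, rfl⟩, rfl⟩
  exact ⟨∑ k, x k • b k, by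
    simp only [MvPolynomial.aeval_def, ← MvPolynomial.eval₂_comp, hQ']⟩

end FA.CyclicAlgebra

end
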